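/-
Program V (S27), route S27-B' (Lefschetz), leaf (SEM), the ABSTRACT COMBINATORICS (helper13).

`Q` = raw points (coordinate tuples), `IsPt` = the point equations, `cls` = the class of a tuple of
points in a group `A` (`Pic0`), `S` = the `n`-torsion.  From the three dictionary statements
`Tors E ↔ cls E ∈ S`, `Eqv E E' ↔ cls E = cls E'`, `(D4) every element of S is a cls E`
we get the two semantic equivalences of (SEM):
* families of pairwise inequivalent torsion tuples indexed by `ι`  ↔  injections `ι → S`;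
* families of torsion tuples indexed by `ι` exhausting the torsion tuples  ↔  surjections `ι → S`.
Prefix `v27sa_`.  Mathlib only.
-/
import Mathlib

set_option autoImplicit false

namespace Fermat.Agent.V

section

variable {Q A S' ι κ : Type*} [SetLike S' A] (S : S')
  (IsPt : Q → Prop) (Tors : (κ → Q) → Prop) (Eqv : (κ → Q) → (κ → Q) → Prop)
  (cls : (κ → Q) → A)

/-- **abstract (SEM-U)**: pairwise inequivalent torsion tuples ↔ injections into the torsion. -/
theorem v27sa_upper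
    (hT : ∀ E, (∀ k, IsPt (E k)) → (Tors E ↔ cls E ∈ S))
    (hE : ∀ E E', (∀ k, IsPt (E k)) → (∀ k, IsPt (E' k)) → (Eqv E E' ↔ cls E = cls E'))
    (hsurj : ∀ a : A, a ∈ S → ∃ E, (∀ k, IsPt (E k)) ∧ cls E = a) :
    (∃ E : ι → κ → Q, (∀ i k, IsPt (E i k)) ∧ (∀ i, Tors (E i)) ∧
      ∀ i i', i ≠ i' → ¬ Eqv (E i) (E i')) ↔ ∃ x : ι → S, Function.Injective x := by
  constructor
  · rintro ⟨E, hpt, htors, hne⟩
    refine ⟨fun i => ⟨cls (E i), (hT (E i) (hpt i)).1 (htors i)⟩, fun i i' h => ?_⟩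
    by_contra hii
    exact hne i i' hii ((hE (E i) (E i') (hpt i) (hpt i')).2 (congrArg Subtype.val h))
  · rintro ⟨x, hx⟩
    choose E hpt hcls using fun i => hsurj (x i : A) (x i).2
    refine ⟨E, hpt, fun i => (hT (E i) (hpt i)).2 (by rw [hcls i]; exact (x i).2),
      fun i i' hii h => hii (hx (Subtype.ext ?_))⟩
    rw [← hcls i, ← hcls i']
    exact (hE (E i) (E i') (hpt i) (hpt i')).1 h

/-- **abstract (SEM-L)**: torsion tuples exhausting the torsion ↔ surjections onto the torsion. -/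
theorem v27sa_lower
    (hT : ∀ E, (∀ k, IsPt (E k)) → (Tors E ↔ cls E ∈ S))
    (hE : ∀ E E', (∀ k, IsPt (E k)) → (∀ k, IsPt (E' k)) → (Eqv E E' ↔ cls E = cls E'))
    (hsurj : ∀ a : A, a ∈ S → ∃ E, (∀ k, IsPt (E k)) ∧ cls E = a) :
    (∃ E : ι → κ → Q, (∀ i k, IsPt (E i k)) ∧ (∀ i, Tors (E i)) ∧
      ∀ E0 : κ → Q, (∀ k, IsPt (E0 k)) → Tors E0 → ∃ i, Eqv E0 (E i)) ↔
      ∃ x : ι → S, Function.Surjective x := by
  constructor
  · rintro ⟨E, hpt, htors, hex⟩
    refine ⟨fun i => ⟨cls (E i), (hT (E i) (hpt i)).1 (htors i)⟩, fun a => ?_⟩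
    obtain ⟨E0, hpt0, hcls0⟩ := hsurj (a : A) a.2
    have ht0 : Tors E0 := (hT E0 hpt0).2 (by rw [hcls0]; exact a.2)
    obtain ⟨i, hi⟩ := hex E0 hpt0 ht0
    refine ⟨i, Subtype.ext ?_⟩
    show cls (E i) = (a : A)
    rw [← hcls0]
    exact ((hE E0 (E i) hpt0 (hpt i)).1 hi).symm
  · rintro ⟨x, hx⟩
    choose E hpt hcls using fun i => hsurj (x i : A) (x i).2
    refine ⟨E, hpt, fun i => (hT (E i) (hpt i)).2 (by rw [hcls i]; exact (x i).2),
      fun E0 hpt0 ht0 => ?_⟩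
    obtain ⟨i, hi⟩ := hx ⟨cls E0, (hT E0 hpt0).1 ht0⟩
    refine ⟨i, (hE E0 (E i) hpt0 (hpt i)).2 ?_⟩
    rw [hcls i, hi]

end

end Fermat.Agent.V
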