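import Mathlib
import Fermat.Agent.V.Pres.Presented
import Fermat.Agent.V.Pts.Places
import Fermat.Agent.V.Pts.Inst.Points
import Fermat.Agent.V.FO.Coord
import Fermat.Agent.V.Dict.DivAff

/-!
# Program V (S27), half B, route M (Lefschetz), leaf (SEM), part 1: points and places

Owner: helper5.  Prefix `v27sm_` / `V27sm`.

On a presented curve `P : V27Presented K F T` (helper5's `V/Pres/Presented.lean`) with `K`
algebraically closed and `V27pB T` a Dedekind domain:

* the `Algebra (V27pB T) F` structure induced by `ψ`, with `IsScalarTower` and `IsFractionRing`;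
* `P.placeOf q hq : Place K F` for a coordinate point `q : V27coP δ → K` with `V27coPt T.c q`
  (helper24's literal), built from helper15's `v27piPoint` / `v27ptPlace`;
* `placeOf ≠ P0`, every place `≠ P0` is a `placeOf`;
* `v27coEv q b = 0 ↔ v27dcVan (placeOf q) (ψ b)` and `≠ 0 ↔ v27dcNonvan` (helper6's literals).
-/

set_option autoImplicit false
set_option linter.unusedSectionVars false
set_option linter.unusedVariables false
set_option linter.style.haveILetI false

noncomputable section

namespace Fermat.Agent.V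

open AlgebraicCurve Polynomial Fermat.Agent.S24 Fermat.Agent.V.Dict

variable {K : Type*} [Field K] {δ : V27pShape} {F : Type*} [Field F] [Algebra K F]
  {T : V27pTable K δ}

namespace V27Presented

variable (P : V27Presented K F T)

/-- the `V27pB T`-algebra structure on `F` given by `ψ`. -/
@[reducible] def toAlgebra : Algebra (V27pB T) F := P.ψ.toRingHom.toAlgebra

theorem algebraMap_eq (b : V27pB T) :
    (letI := P.toAlgebra; algebraMap (V27pB T) F b) = P.ψ b := rfl

theorem isScalarTower : letI := P.toAlgebra; IsScalarTower K (V27pB T) F := by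
  letI := P.toAlgebra
  refine IsScalarTower.of_algebraMap_eq fun c => ?_
  show algebraMap K F c = P.ψ (algebraMap K (V27pB T) c)
  rw [AlgHom.commutes]

theorem faithfulSMul : letI := P.toAlgebra; FaithfulSMul (V27pB T) F := by
  letI := P.toAlgebra
  exact (faithfulSMul_iff_algebraMap_injective (V27pB T) F).mpr P.inj

theorem isFractionRing : letI := P.toAlgebra; IsFractionRing (V27pB T) F := by
  letI := P.toAlgebra
  haveI := P.faithfulSMul
  refine IsFractionRing.of_field (V27pB T) F fun z => ?_
  obtain ⟨a, b, hb, hab⟩ := P.hfrac z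
  refine ⟨a, b, ?_⟩
  show z = P.ψ a / P.ψ b
  rw [eq_div_iff (P.ψ_ne_zero hb), hab]

end V27Presented

/-! ### coordinate points -/

/-- helper24's point equations are helper15's. -/
theorem v27sm_ptEq_of_pt {q : V27coP δ → K} (hq : V27coPt T.c q) :
    V27piPtEq T (q none) (fun j => q (some j)) := hq

/-- the `K`-algebra hom of a coordinate point. -/
def v27smHom (T : V27pTable K δ) (q : V27coP δ → K) (hq : V27coPt T.c q) : V27pB T →ₐ[K] K :=
  v27piPoint (q none) (fun j => q (some j)) (v27sm_ptEq_of_pt hq)

theorem v27smHom_apply (q : V27coP δ → K) (hq : V27coPt T.c q) (b : V27pB T) :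
    v27smHom T q hq b = v27coEv q b := by
  unfold v27smHom
  rw [v27piPoint_apply]
  rfl

/-- the coordinates of a `K`-algebra hom. -/
def v27smCoord (φ : V27pB T →ₐ[K] K) : V27coP δ → K :=
  fun o => Option.elim o (φ V27pB.x) (fun j => φ (V27pB.e j))

theorem v27sm_pt_coord (φ : V27pB T →ₐ[K] K) : V27coPt T.c (v27smCoord φ) :=
  v27pi_ptEq_of_point φ

theorem v27smHom_coord (φ : V27pB T →ₐ[K] K) :
    v27smHom T (v27smCoord φ) (v27sm_pt_coord φ) = φ :=
  (v27pi_point_eq φ).symm

/-! ### places of coordinate points -/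

namespace V27Presented

variable [IsAlgClosed K] [IsDedekindDomain (V27pB T)] (P : V27Presented K F T)

/-- the place of `F` attached to a coordinate point. -/
def placeOf (q : V27coP δ → K) (hq : V27coPt T.c q) : Place K F :=
  letI := P.toAlgebra
  haveI := P.isScalarTower
  haveI := P.isFractionRing
  v27ptPlace F (v27pi_not_isField (T := T)) (v27smHom T q hq)

theorem placeOf_mem (q : V27coP δ → K) (hq : V27coPt T.c q) (b : V27pB T) :
    P.ψ b ∈ (P.placeOf q hq).toValuationSubring := by
  letI := P.toAlgebra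
  haveI := P.isScalarTower
  haveI := P.isFractionRing
  exact v27pt_place_mem (M := F) (v27pi_not_isField (T := T)) (v27smHom T q hq) b

theorem placeOf_ord_nonneg (q : V27coP δ → K) (hq : V27coPt T.c q) (b : V27pB T) :
    0 ≤ (P.placeOf q hq).ord (P.ψ b) :=
  PlaceOrd.ord_nonneg_of_mem _ (P.placeOf_mem q hq b)

theorem placeOf_ord_pos_iff (q : V27coP δ → K) (hq : V27coPt T.c q) {b : V27pB T}
    (hb : b ≠ 0) : 0 < (P.placeOf q hq).ord (P.ψ b) ↔ v27coEv q b = 0 := by
  letI := P.toAlgebra
  haveI := P.isScalarTower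
  haveI := P.isFractionRing
  rw [← v27smHom_apply q hq b]
  exact v27pt_place_ord_pos_iff (M := F) (v27pi_not_isField (T := T)) (v27smHom T q hq) hb

/-- the pole order of `x` at `P0` is `N`. -/
theorem ord_x : P.P0.ord (P.ψ V27pB.x) = -(δ.N : ℤ) := by
  have hx0 : (V27pB.x : V27pB T) ≠ 0 := by
    intro h
    have := congrFun h (0 : ZMod δ.N)
    rw [V27pB.x, V27pB.algebraMap_poly_apply] at this
    simp at this
  rw [P.ord_eq_iff hx0]
  refine ⟨fun j r hr => ?_, 0, 1, by rw [δ.d_zero]; ring, ?_⟩
  · rw [V27pB.x, V27pB.algebraMap_poly_apply]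
    split_ifs with hj
    · subst hj
      rw [δ.d_zero] at hr
      rw [Polynomial.coeff_X]
      have hN : 0 < δ.N := δ.hN
      have : r ≠ 1 := by
        rintro rfl
        omega
      rw [if_neg (Ne.symm this)]
    · simp
  · rw [V27pB.x, V27pB.algebraMap_poly_apply, if_pos rfl, Polynomial.coeff_X_one]
    exact one_ne_zero

theorem placeOf_ne (q : V27coP δ → K) (hq : V27coPt T.c q) : P.placeOf q hq ≠ P.P0 := by
  intro h
  have h1 := P.placeOf_ord_nonneg q hq V27pB.x
  rw [h, P.ord_x] at h1
  have hN : 0 < δ.N := δ.hN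
  omega

/-- every place other than `P0` is the place of a coordinate point. -/
theorem exists_placeOf {v : Place K F} (hv : v ≠ P.P0) :
    ∃ (q : V27coP δ → K) (hq : V27coPt T.c q), v = P.placeOf q hq := by
  letI := P.toAlgebra
  haveI := P.isScalarTower
  haveI := P.isFractionRing
  obtain ⟨φ, hφ⟩ := v27pt_exists_place_eq (M := F) (v27pi_not_isField (T := T)) v
    (fun b => P.hcover v hv b)
  refine ⟨v27smCoord φ, v27sm_pt_coord φ, ?_⟩
  rw [hφ]
  unfold placeOf
  rw [v27smHom_coord]

/-- vanishing at a coordinate point. -/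
theorem van_iff (q : V27coP δ → K) (hq : V27coPt T.c q) (b : V27pB T) :
    v27dcVan (P.placeOf q hq) (P.ψ b) ↔ v27coEv q b = 0 := by
  rcases eq_or_ne b 0 with rfl | hb
  · simp [v27dcVan, v27coEv]
  · unfold v27dcVan
    rw [P.placeOf_ord_pos_iff q hq hb]
    constructor
    · rintro (h | h)
      · exact absurd h (P.ψ_ne_zero hb)
      · exact h
    · exact fun h => Or.inr h

/-- non-vanishing at a coordinate point. -/
theorem nonvan_iff (q : V27coP δ → K) (hq : V27coPt T.c q) (b : V27pB T) :
    v27dcNonvan (P.placeOf q hq) (P.ψ b) ↔ v27coEv q b ≠ 0 := by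
  rcases eq_or_ne b 0 with rfl | hb
  · simp [v27dcNonvan, v27coEv]
  · unfold v27dcNonvan
    have h1 := P.placeOf_ord_nonneg q hq b
    have h2 := P.placeOf_ord_pos_iff q hq hb
    constructor
    · rintro ⟨_, h0⟩ hev
      have := h2.mpr hev
      omega
    · intro hev
      refine ⟨P.ψ_ne_zero hb, ?_⟩
      by_contra hne
      exact hev (h2.mp (lt_of_le_of_ne h1 (Ne.symm hne)))

end V27Presented

end Fermat.Agent.V
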