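import Mathlib
import Fermat.Agent.V.Sem.Points
import Fermat.Agent.V.Dict.Main

/-!
# Program V (S27), half B, route M (Lefschetz), leaf (SEM), part 2: boxes, products, exactness

Owner: helper5.  Prefix `v27sm_` / `V27sm`.

The dictionary between helper24's raw coordinate objects (`v27coEl`, `v27coMul`, `v27coProd`,
`V27coExact`) and the ring `V27pB T` / the pole-order predicate `V27prLe`, and through a
presentation `P : V27Presented K F T` with helper6's `v27dcL`, `v27dcExact`.
-/

set_option autoImplicit false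
set_option linter.unusedSectionVars false
set_option linter.unusedVariables false
set_option linter.style.haveILetI false

noncomputable section

namespace Fermat.Agent.V

open AlgebraicCurve Polynomial Fermat.Agent.S24 Fermat.Agent.V.Dict

variable {K : Type*} [Field K] {δ : V27pShape} {T : V27pTable K δ}

/-- a coefficient box as an element of the table ring. -/
def v27smEl (T : V27pTable K δ) {D : ℕ} (a : V27coE δ D → K) : V27pB T := v27coEl a

theorem v27smEl_apply {D : ℕ} (a : V27coE δ D → K) (j : ZMod δ.N) :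
    v27smEl T a j = ∑ r : Fin (D + 1), C (a (j, r)) * X ^ (r : ℕ) := rfl

theorem v27smEl_coeff {D : ℕ} (a : V27coE δ D → K) (j : ZMod δ.N) (r : ℕ) :
    (v27smEl T a j).coeff r = if h : r < D + 1 then a (j, ⟨r, h⟩) else 0 := by
  rw [v27smEl_apply, Polynomial.finsetSum_coeff]
  simp only [Polynomial.coeff_C_mul, Polynomial.coeff_X_pow]
  split_ifs with h
  · rw [Finset.sum_eq_single (⟨r, h⟩ : Fin (D + 1))]
    · simp
    · intro s _ hs
      have : r ≠ (s : ℕ) := fun hrs => hs (Fin.ext hrs.symm)
      simp [this]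
    · intro hn; exact absurd (Finset.mem_univ _) hn
  · apply Finset.sum_eq_zero
    intro s _
    have : r ≠ (s : ℕ) := fun hrs => h (hrs ▸ s.isLt)
    simp [this]

/-- the box of an element. -/
def v27smBox (D : ℕ) (b : V27pB T) : V27coE δ D → K := fun p => (b p.1).coeff p.2

theorem v27smEl_box {D : ℕ} {b : V27pB T} (hb : ∀ j, (b j).natDegree ≤ D) :
    v27smEl T (v27smBox D b) = b := by
  refine V27pB.ext fun j => Polynomial.ext fun r => ?_
  rw [v27smEl_coeff]
  split_ifs with h
  · rfl
  · symm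
    apply Polynomial.coeff_eq_zero_of_natDegree_lt
    have := hb j
    omega

theorem v27sm_natDegree_le_of_le {m D : ℕ} (hmD : m ≤ D) {b : V27pB T} (hb : V27prLe T m b)
    (j : ZMod δ.N) : (b j).natDegree ≤ D := by
  by_cases hj : b j = 0
  · rw [hj]; simp
  · have := (v27pr_le_iff_natDegree T m b).mp hb j hj
    have hN : 0 < δ.N := δ.hN
    have : (b j).natDegree ≤ δ.N * (b j).natDegree := Nat.le_mul_of_pos_left _ hN
    omega

/-- every element of weight `≤ m ≤ D` is the element of a box of size `D`. -/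
theorem v27sm_exists_box {m D : ℕ} (hmD : m ≤ D) {b : V27pB T} (hb : V27prLe T m b) :
    ∃ a : V27coE δ D → K, v27smEl T a = b :=
  ⟨v27smBox D b, v27smEl_box (v27sm_natDegree_le_of_le hmD hb)⟩

/-- a bound for all `d j`. -/
def V27pShape.dmax (δ : V27pShape) : ℕ := ∑ j : ZMod δ.N, δ.d j

theorem V27pShape.d_le_dmax (δ : V27pShape) (j : ZMod δ.N) : δ.d j ≤ δ.dmax :=
  Finset.single_le_sum (f := fun j => δ.d j) (fun _ _ => Nat.zero_le _) (Finset.mem_univ j)

/-- the element of a box of size `D` has weight `≤ N D + dmax`. -/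
theorem v27sm_le_el {D : ℕ} (a : V27coE δ D → K) :
    V27prLe T (δ.N * D + δ.dmax) (v27smEl T a) := by
  intro j r hr
  rw [v27smEl_coeff]
  split_ifs with h
  · exfalso
    have h1 : δ.N * r ≤ δ.N * D := Nat.mul_le_mul_left _ (by omega)
    have h2 := δ.d_le_dmax j
    omega
  · rfl

theorem v27sm_le_el_iff {D : ℕ} (a : V27coE δ D → K) (m : ℕ) :
    V27prLe T m (v27smEl T a) ↔
      ∀ j (r : Fin (D + 1)), m < δ.N * r + δ.d j → a (j, r) = 0 := by
  constructor
  · intro h j r hr
    have := h j r hr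
    rwa [v27smEl_coeff, dif_pos r.isLt] at this
  · intro h j r hr
    rw [v27smEl_coeff]
    split_ifs with hlt
    · exact h j ⟨r, hlt⟩ hr
    · rfl

/-! ### products -/

theorem v27sm_mul (a b : V27pB T) : v27coMul T.c a b = (a * b : V27pB T) := rfl

theorem v27sm_one : (v27coOne : ZMod δ.N → K[X]) = (1 : V27pB T) := rfl

theorem v27sm_prod (l : List (V27pB T)) : v27coProd T.c l = (l.prod : V27pB T) := by
  induction l with
  | nil => rfl
  | cons a l ih =>
    show v27coMul T.c a (v27coProd T.c l) = _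
    rw [ih, List.prod_cons]
    rfl

theorem v27sm_prod_ofFn {m : ℕ} (u : Fin m → V27pB T) :
    v27coProd T.c (List.ofFn fun i => (u i : ZMod δ.N → K[X])) = (∏ i, u i : V27pB T) := by
  have h : ((List.ofFn u : List (V27pB T))).prod = ∏ i, u i := List.prod_ofFn
  rw [← h]
  exact v27sm_prod (List.ofFn u)

/-! ### exact pole order -/

variable {F : Type*} [Field F] [Algebra K F]

theorem v27sm_el_ne_zero_of_exact {D m : ℕ} {a : V27coE δ D → K} (h : V27coExact δ m a) :
    v27smEl T a ≠ 0 := by
  obtain ⟨_, j, r, _, hne⟩ := h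
  intro h0
  have := congrArg (fun b : V27pB T => (b j).coeff (r : ℕ)) h0
  simp only [V27pB.zero_apply, Polynomial.coeff_zero] at this
  rw [v27smEl_coeff, dif_pos r.isLt] at this
  exact hne this

/-- `V27coExact` is helper6's `v27dcExact` through a presentation. -/
theorem V27Presented.exact_iff (P : V27Presented K F T) {D : ℕ} (m : ℕ)
    (a : V27coE δ D → K) :
    V27coExact δ m a ↔ v27dcExact P.P0 m (P.ψ (v27smEl T a)) := by
  constructor
  · intro h
    have hne := v27sm_el_ne_zero_of_exact (T := T) h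
    obtain ⟨h1, j, r, hjr, hc⟩ := h
    have hle : V27prLe T m (v27smEl T a) := (v27sm_le_el_iff a m).mpr h1
    refine ⟨P.ψ_ne_zero hne, (P.mem_L_iff m _).mpr hle, ?_⟩
    rw [P.ord_eq_iff hne]
    exact ⟨hle, j, r, hjr, by rw [v27smEl_coeff, dif_pos r.isLt]; exact hc⟩
  · rintro ⟨hne, hL, hord⟩
    have hne' : v27smEl T a ≠ 0 := fun h0 => hne (by rw [h0, map_zero])
    obtain ⟨hle, j, r, hjr, hc⟩ := (P.ord_eq_iff hne' m).mp hord
    refine ⟨(v27sm_le_el_iff a m).mp hle, j, ?_⟩
    rw [v27smEl_coeff] at hc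
    split_ifs at hc with hlt
    · exact ⟨⟨r, hlt⟩, hjr, hc⟩
    · exact absurd rfl hc

/-- an element of `F` of exact pole order `m` is the element of an exact box of size `m`. -/
theorem V27Presented.exists_exact_box (P : V27Presented K F T) {m : ℕ} {f : F}
    (hf : v27dcExact P.P0 m f) :
    ∃ a : V27coE δ m → K, V27coExact δ m a ∧ P.ψ (v27smEl T a) = f := by
  obtain ⟨b, hb, rfl⟩ := P.exists_of_mem_L hf.2.1
  obtain ⟨a, rfl⟩ := v27sm_exists_box (le_refl m) hb
  exact ⟨a, (P.exact_iff m a).mpr hf, rfl⟩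

end Fermat.Agent.V
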