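import Mathlib
import Fermat.Agent.V.Sem.Box

/-!
# Program V (S27), half B, route M (Lefschetz), leaf (SEM), part 3: DivAff, torsion, equivalence

Owner: helper5.  Prefix `v27sm_` / `V27sm`.

On a presented curve `P : V27Presented K F T` (`K` algebraically closed, `V27pB T` Dedekind,
`R : V27RR K F g`): helper24's coordinate predicates `V27coDivAff`, `V27coTors`, `V27coEquiv`
are equivalent to helper6's place-level statements.

* `P.pl q` : the place of a coordinate point (`P0` if `q` is not a point);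
* `divAff_place_of_coord` / `divAff_coord_of_place`;
* `tors_of_coord` / `coord_of_tors` : `V27coTors D n T.c E ↔ [ΣE - g'P0] ∈ Pic0[n]`;
* `cls_eq_of_equiv` / `equiv_of_cls_eq` : `V27coEquiv D r T.c E E' ↔ [ΣE - g'P0] = [ΣE' - g'P0]`.
-/

set_option autoImplicit false
set_option linter.unusedSectionVars false
set_option linter.unusedVariables false
set_option linter.style.haveILetI false

noncomputable section

namespace Fermat.Agent.V

open AlgebraicCurve Polynomial Fermat.Agent.S24 Fermat.Agent.V.Dict Fermat.Agent.V.RR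

variable {K : Type*} [Field K] {δ : V27pShape} {T : V27pTable K δ}
  {F : Type*} [Field F] [Algebra K F]

namespace V27Presented

variable [IsAlgClosed K] [IsDedekindDomain (V27pB T)] (P : V27Presented K F T)

open Classical in
/-- the place of a coordinate tuple (total version: `P0` outside the points). -/
def pl (q : V27coP δ → K) : Place K F :=
  if hq : V27coPt T.c q then P.placeOf q hq else P.P0

theorem pl_eq {q : V27coP δ → K} (hq : V27coPt T.c q) : P.pl q = P.placeOf q hq := by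
  unfold pl
  rw [dif_pos hq]

theorem pl_ne {q : V27coP δ → K} (hq : V27coPt T.c q) : P.pl q ≠ P.P0 := by
  rw [P.pl_eq hq]
  exact P.placeOf_ne q hq

theorem exists_pl {v : Place K F} (hv : v ≠ P.P0) :
    ∃ q : V27coP δ → K, V27coPt T.c q ∧ P.pl q = v := by
  obtain ⟨q, hq, rfl⟩ := P.exists_placeOf hv
  exact ⟨q, hq, P.pl_eq hq⟩

/-- a tuple of places `≠ P0` is the tuple of places of a tuple of coordinate points. -/
theorem exists_pl_tuple {e : ℕ} {E : Fin e → Place K F} (hE : ∀ i, E i ≠ P.P0) :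
    ∃ Eq : Fin e → V27coP δ → K, (∀ i, V27coPt T.c (Eq i)) ∧ (fun i => P.pl (Eq i)) = E := by
  choose Eq hEq using fun i => P.exists_pl (hE i)
  exact ⟨Eq, fun i => (hEq i).1, funext fun i => (hEq i).2⟩

theorem pl_append {e r : ℕ} (E : Fin e → V27coP δ → K) (G : Fin r → V27coP δ → K) :
    (fun i => P.pl (Fin.append E G i)) =
      Fin.append (fun i => P.pl (E i)) (fun i => P.pl (G i)) := by
  funext i
  refine Fin.addCases (fun j => ?_) (fun j => ?_) i
  · rw [Fin.append_left, Fin.append_left]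
  · rw [Fin.append_right, Fin.append_right]

omit [IsAlgClosed K] [IsDedekindDomain (V27pB T)] in
theorem pt_append (P : V27Presented K F T) {e r : ℕ} {E : Fin e → V27coP δ → K}
    {G : Fin r → V27coP δ → K}
    (hE : ∀ i, V27coPt T.c (E i)) (hG : ∀ i, V27coPt T.c (G i)) (i : Fin (e + r)) :
    V27coPt T.c (Fin.append E G i) := by
  refine Fin.addCases (fun j => ?_) (fun j => ?_) i
  · rw [Fin.append_left]; exact hE j
  · rw [Fin.append_right]; exact hG j

/-! ### DivAff -/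

/-- coordinates ⟹ places (bounds `N D + dmax`). -/
theorem divAff_place_of_coord {D Df m : ℕ} (f : V27coE δ Df → K)
    (Tq : Fin m → V27coP δ → K) (hT : ∀ i, V27coPt T.c (Tq i))
    (h : V27coDivAff D T.c f Tq) :
    v27dcDivAff P.P0 (δ.N * D + δ.dmax) (δ.N * D + δ.dmax) (δ.N * D + δ.dmax)
      (fun i => P.pl (Tq i)) (P.ψ (v27smEl T f)) := by
  obtain ⟨u, s, h', hu, hs, heq⟩ := h
  refine ⟨fun i => P.ψ (v27smEl T (u i)), P.ψ (v27smEl T s), P.ψ (v27smEl T h'),
    fun i => (P.mem_L_iff _ _).mpr (v27sm_le_el (u i)),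
    (P.mem_L_iff _ _).mpr (v27sm_le_el s), (P.mem_L_iff _ _).mpr (v27sm_le_el h'),
    fun i => ?_, fun i => ?_, ?_⟩
  · show v27dcVan (P.pl (Tq i)) _
    rw [P.pl_eq (hT i)]
    exact (P.van_iff (Tq i) (hT i) _).mpr (hu i)
  · show v27dcNonvan (P.pl (Tq i)) _
    rw [P.pl_eq (hT i)]
    exact (P.nonvan_iff (Tq i) (hT i) _).mpr (hs i)
  · have hB : (v27smEl T s * v27smEl T f : V27pB T) =
        v27smEl T h' * ∏ i, v27smEl T (u i) := by
      rw [← v27sm_prod_ofFn]
      exact heq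
    rw [← map_prod, ← map_mul, ← map_mul, hB]

/-- places ⟹ coordinates (bounds `≤ D`). -/
theorem divAff_coord_of_place {D Df m b1 b2 b3 : ℕ} (hb1 : b1 ≤ D) (hb2 : b2 ≤ D)
    (hb3 : b3 ≤ D) (f : V27coE δ Df → K)
    (Tq : Fin m → V27coP δ → K) (hT : ∀ i, V27coPt T.c (Tq i))
    (h : v27dcDivAff P.P0 b1 b2 b3 (fun i => P.pl (Tq i)) (P.ψ (v27smEl T f))) :
    V27coDivAff D T.c f Tq := by
  obtain ⟨u, s, h', hu, hs, hh, hvan, hnon, heq⟩ := h
  choose ub hub using fun i => P.exists_of_mem_L (hu i)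
  choose ua hua using fun i => v27sm_exists_box hb1 (hub i).1
  obtain ⟨sb, hsb, rfl⟩ := P.exists_of_mem_L hs
  obtain ⟨sa, rfl⟩ := v27sm_exists_box hb2 hsb
  obtain ⟨hb, hhb, rfl⟩ := P.exists_of_mem_L hh
  obtain ⟨ha, rfl⟩ := v27sm_exists_box hb3 hhb
  have hu' : ∀ i, u i = P.ψ (v27smEl T (ua i)) := fun i => by rw [hua i, (hub i).2]
  refine ⟨ua, sa, ha, fun i => ?_, fun i => ?_, ?_⟩
  · have : v27dcVan (P.pl (Tq i)) (u i) := hvan i
    rw [hu' i, P.pl_eq (hT i)] at this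
    exact (P.van_iff (Tq i) (hT i) _).mp this
  · have : v27dcNonvan (P.pl (Tq i)) (P.ψ (v27smEl T sa)) := hnon i
    rw [P.pl_eq (hT i)] at this
    exact (P.nonvan_iff (Tq i) (hT i) _).mp this
  · have h1 : P.ψ (v27smEl T sa * v27smEl T f) =
        P.ψ (v27smEl T ha * ∏ i, v27smEl T (ua i)) := by
      rw [map_mul, map_mul, map_prod, heq]
      congr 1
      exact Finset.prod_congr rfl fun i _ => hu' i
    have h2 := P.inj h1
    show v27coMul T.c (v27coEl sa) (v27coEl f) =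
      v27coMul T.c (v27coEl ha) (v27coProd T.c (List.ofFn fun i => v27coEl (ua i)))
    have h3 := v27sm_prod_ofFn (T := T) (fun i => v27smEl T (ua i))
    rw [show (fun i => v27coEl (ua i)) = fun i => (v27smEl T (ua i) : ZMod δ.N → K[X]) from rfl,
      h3]
    exact h2

/-! ### torsion and equality of classes -/

variable {g : ℕ} (hdeg : ∀ v : Place K F, v.deg = 1)

/-- **(SEM-T ⟹)** a coordinate torsion certificate gives a torsion class. -/
theorem tors_of_coord (R : V27RR K F g) {D n g' : ℕ} (E : Fin g' → V27coP δ → K)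
    (hE : ∀ k, V27coPt T.c (E k)) (h : V27coTors D n T.c E) :
    v27dcCls hdeg P.P0 (fun k => P.pl (E k)) ∈ Pic0.torsion K F n := by
  obtain ⟨f, hfe, hda⟩ := h
  have hE' : ∀ k, P.pl (E k) ≠ P.P0 := fun k => P.pl_ne (hE k)
  rw [v27dc_torsion_iff hdeg P.P0 n _ hE']
  have hex := (P.exact_iff (n * g') f).mp hfe
  have hpl := P.divAff_place_of_coord f _ (fun k => hE (finProdFinEquiv.symm k).2) hda
  exact ⟨P.ψ (v27smEl T f),
    v27dc_isDiv_of_divAff R hdeg (v27dcRep_ne n _ P.P0 hE') hex.1 hex.2.1 hex.2.2 hpl⟩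

/-- **(SEM-T ⟸)** a torsion class has a coordinate torsion certificate. -/
theorem coord_of_tors (R : V27RR K F g) {D n g' : ℕ} (hD1 : 2 * g + 1 ≤ D)
    (hD2 : 2 * g * (n * g') + 2 * g ≤ D) (E : Fin g' → V27coP δ → K)
    (hE : ∀ k, V27coPt T.c (E k))
    (h : v27dcCls hdeg P.P0 (fun k => P.pl (E k)) ∈ Pic0.torsion K F n) :
    V27coTors D n T.c E := by
  haveI : Infinite K := IsAlgClosed.instInfinite
  have hE' : ∀ k, P.pl (E k) ≠ P.P0 := fun k => P.pl_ne (hE k)
  obtain ⟨f, hfe, hda⟩ := (v27dc_torsion_iff_divAff R hdeg P.P0 n _ hE').mp h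
  obtain ⟨a, hae, rfl⟩ := P.exists_exact_box hfe
  exact ⟨a, hae, P.divAff_coord_of_place hD1 hD2 hD2 a _
    (fun k => hE (finProdFinEquiv.symm k).2) hda⟩

/-- **(SEM-E ⟹)** a coordinate equivalence certificate gives equal classes. -/
theorem cls_eq_of_equiv (R : V27RR K F g) {D r g' : ℕ} (hr : 2 * g ≤ r) (E E' : Fin g' → V27coP δ → K)
    (hE : ∀ k, V27coPt T.c (E k)) (hE' : ∀ k, V27coPt T.c (E' k))
    (h : V27coEquiv D r T.c E E') :
    v27dcCls hdeg P.P0 (fun k => P.pl (E k)) = v27dcCls hdeg P.P0 (fun k => P.pl (E' k)) := by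
  haveI : Infinite K := IsAlgClosed.instInfinite
  obtain ⟨G, b1, b2, hG, he1, he2, hd1, hd2⟩ := h
  have hEp : ∀ k, P.pl (E k) ≠ P.P0 := fun k => P.pl_ne (hE k)
  have hEp' : ∀ k, P.pl (E' k) ≠ P.P0 := fun k => P.pl_ne (hE' k)
  have hGp : ∀ k, P.pl (G k) ≠ P.P0 := fun k => P.pl_ne (hG k)
  rw [v27dcCls_eq_iff, v27dc_equiv_iff R hdeg P.P0 hr _ _ hEp hEp']
  have hx1 := (P.exact_iff (g' + r) b1).mp he1
  have hx2 := (P.exact_iff (g' + r) b2).mp he2
  have hp1 := P.divAff_place_of_coord b1 _ (P.pt_append hE hG) hd1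
  have hp2 := P.divAff_place_of_coord b2 _ (P.pt_append hE' hG) hd2
  rw [P.pl_append] at hp1 hp2
  exact ⟨fun k => P.pl (G k), P.ψ (v27smEl T b1), P.ψ (v27smEl T b2), hGp,
    v27dc_isDiv_of_divAff R hdeg (v27dc_append_ne hEp hGp) hx1.1 hx1.2.1 hx1.2.2 hp1,
    v27dc_isDiv_of_divAff R hdeg (v27dc_append_ne hEp' hGp) hx2.1 hx2.2.1 hx2.2.2 hp2⟩

/-- **(SEM-E ⟸)** equal classes have a coordinate equivalence certificate. -/
theorem equiv_of_cls_eq (R : V27RR K F g) {D r g' : ℕ} (hr : 2 * g ≤ r) (hD1 : 2 * g + 1 ≤ D)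
    (hD3 : 2 * g * (g' + r) + 2 * g ≤ D) (E E' : Fin g' → V27coP δ → K)
    (hE : ∀ k, V27coPt T.c (E k)) (hE' : ∀ k, V27coPt T.c (E' k))
    (h : v27dcCls hdeg P.P0 (fun k => P.pl (E k)) =
      v27dcCls hdeg P.P0 (fun k => P.pl (E' k))) :
    V27coEquiv D r T.c E E' := by
  haveI : Infinite K := IsAlgClosed.instInfinite
  have hEp : ∀ k, P.pl (E k) ≠ P.P0 := fun k => P.pl_ne (hE k)
  have hEp' : ∀ k, P.pl (E' k) ≠ P.P0 := fun k => P.pl_ne (hE' k)
  obtain ⟨Gp, b1, b2, hGp, he1, he2, hd1, hd2⟩ :=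
    (v27dc_cls_eq_iff_divAff R hdeg P.P0 hr _ _ hEp hEp').mp h
  obtain ⟨G, hG, rfl⟩ := P.exists_pl_tuple hGp
  obtain ⟨a1, ha1, rfl⟩ := P.exists_exact_box he1
  obtain ⟨a2, ha2, rfl⟩ := P.exists_exact_box he2
  rw [← P.pl_append] at hd1 hd2
  exact ⟨G, a1, a2, hG, ha1, ha2,
    P.divAff_coord_of_place hD1 hD3 hD3 a1 _ (P.pt_append hE hG) hd1,
    P.divAff_coord_of_place hD1 hD3 hD3 a2 _ (P.pt_append hE' hG) hd2⟩

end V27Presented

end Fermat.Agent.V
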