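import Mathlib
import Fermat.Agent.V.Sem.Classes
import Fermat.Agent.V.Sem.Abs

/-!
# Program V (S27), half B, route M (Lefschetz), leaf (SEM), part 4: (SEM-U) and (SEM-L)

Owner: helper5.  Prefix `v27sm_` / `V27sm`; the abstract combinatorics is helper13's
`v27sa_upper` / `v27sa_lower`.

On a presented curve `P : V27Presented K F T` (`K` algebraically closed, `V27pB T` Dedekind,
`R : V27RR K F g`, all places of degree one) and for parameters with `2g ≤ g'`, `2g ≤ r`,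
`2g + 1 ≤ D`, `2g(n g') + 2g ≤ D`, `2g(g' + r) + 2g ≤ D`:

* `P.semU` : the third conjunct of `V27coPhiU` (on the table `T.c`) holds iff there is an injection
  `Fin (M+1) → Pic0.torsion K F n`;
* `P.semL` : the third conjunct of `V27coPhiL` holds iff there is a surjection
  `Fin (M-1) → Pic0.torsion K F n`;
* `P.phiU_iff`, `P.phiL_iff` : the same for helper24's literal `V27coPhiU δ D r n g' M w`,
  `V27coPhiL δ D r n g' M w` when `v27coTab w = T.c` and `V27coP3 D T.c` holds.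
-/

set_option autoImplicit false
set_option linter.unusedSectionVars false
set_option linter.unusedVariables false
set_option linter.style.haveILetI false

noncomputable section

namespace Fermat.Agent.V

open AlgebraicCurve Polynomial Fermat.Agent.S24 Fermat.Agent.V.Dict Fermat.Agent.V.RR

variable {K : Type*} [Field K] {δ : V27pShape} {T : V27pTable K δ}
  {F : Type*} [Field F] [Algebra K F]

namespace V27Presented

variable [IsAlgClosed K] [IsDedekindDomain (V27pB T)]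
variable {g : ℕ}

/-- the class of a tuple of coordinate points. -/
def cls (P : V27Presented K F T) (hdeg : ∀ v : Place K F, v.deg = 1) {g' : ℕ} (E : Fin g' → V27coP δ → K) : Pic0 K F :=
  v27dcCls hdeg P.P0 (fun k => P.pl (E k))

/-- (D4) in coordinates: every class is the class of a tuple of coordinate points. -/
theorem exists_cls (P : V27Presented K F T) (hdeg : ∀ v : Place K F, v.deg = 1)
    (R : V27RR K F g) {g' : ℕ} (hg' : 2 * g ≤ g') (a : Pic0 K F) :
    ∃ E : Fin g' → V27coP δ → K, (∀ k, V27coPt T.c (E k)) ∧ P.cls hdeg E = a := by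
  haveI : Infinite K := IsAlgClosed.instInfinite
  obtain ⟨Ep, hEp, rfl⟩ := v27dc_exists_repr R hdeg P.P0 hg' a
  obtain ⟨E, hE, rfl⟩ := P.exists_pl_tuple hEp
  exact ⟨E, hE, rfl⟩

/-- **(SEM-U)**. -/
theorem semU (P : V27Presented K F T) (hdeg : ∀ v : Place K F, v.deg = 1)
    (R : V27RR K F g) {D r n g' : ℕ} (M : ℕ) (hg' : 2 * g ≤ g') (hr : 2 * g ≤ r)
    (hD1 : 2 * g + 1 ≤ D) (hD2 : 2 * g * (n * g') + 2 * g ≤ D)
    (hD3 : 2 * g * (g' + r) + 2 * g ≤ D) :
    (∃ E : Fin (M + 1) → Fin g' → V27coP δ → K,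
      (∀ i k, V27coPt T.c (E i k)) ∧ (∀ i, V27coTors D n T.c (E i)) ∧
      ∀ i i', i ≠ i' → ¬ V27coEquiv D r T.c (E i) (E i')) ↔
    ∃ x : Fin (M + 1) → Pic0.torsion K F n, Function.Injective x :=
  v27sa_upper (Pic0.torsion K F n) (V27coPt T.c) (V27coTors D n T.c) (V27coEquiv D r T.c)
    (P.cls hdeg)
    (fun E hE => ⟨P.tors_of_coord hdeg R E hE, P.coord_of_tors hdeg R hD1 hD2 E hE⟩)
    (fun E E' hE hE' => ⟨P.cls_eq_of_equiv hdeg R hr E E' hE hE',
      P.equiv_of_cls_eq hdeg R hr hD1 hD3 E E' hE hE'⟩)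
    (fun a _ => P.exists_cls hdeg R hg' a)

/-- **(SEM-L)**. -/
theorem semL (P : V27Presented K F T) (hdeg : ∀ v : Place K F, v.deg = 1)
    (R : V27RR K F g) {D r n g' : ℕ} (M : ℕ) (hg' : 2 * g ≤ g') (hr : 2 * g ≤ r)
    (hD1 : 2 * g + 1 ≤ D) (hD2 : 2 * g * (n * g') + 2 * g ≤ D)
    (hD3 : 2 * g * (g' + r) + 2 * g ≤ D) :
    (∃ E : Fin (M - 1) → Fin g' → V27coP δ → K,
      (∀ i k, V27coPt T.c (E i k)) ∧ (∀ i, V27coTors D n T.c (E i)) ∧
      ∀ E0 : Fin g' → V27coP δ → K, (∀ k, V27coPt T.c (E0 k)) →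
        V27coTors D n T.c E0 → ∃ i, V27coEquiv D r T.c E0 (E i)) ↔
    ∃ x : Fin (M - 1) → Pic0.torsion K F n, Function.Surjective x :=
  v27sa_lower (Pic0.torsion K F n) (V27coPt T.c) (V27coTors D n T.c) (V27coEquiv D r T.c)
    (P.cls hdeg)
    (fun E hE => ⟨P.tors_of_coord hdeg R E hE, P.coord_of_tors hdeg R hD1 hD2 E hE⟩)
    (fun E E' hE hE' => ⟨P.cls_eq_of_equiv hdeg R hr E E' hE hE',
      P.equiv_of_cls_eq hdeg R hr hD1 hD3 E E' hE hE'⟩)
    (fun a _ => P.exists_cls hdeg R hg' a)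

/-- **(SEM-U)** for helper24's literal `V27coPhiU`. -/
theorem phiU_iff (P : V27Presented K F T) (hdeg : ∀ v : Place K F, v.deg = 1)
    (R : V27RR K F g) {D r n g' : ℕ} (M : ℕ) (hg' : 2 * g ≤ g') (hr : 2 * g ≤ r)
    (hD1 : 2 * g + 1 ≤ D) (hD2 : 2 * g * (n * g') + 2 * g ≤ D)
    (hD3 : 2 * g * (g' + r) + 2 * g ≤ D) (w : V27coC δ → K) (hw : v27coTab w = T.c)
    (hT : V27coIsTable T.c) (hP3 : V27coP3 D T.c) :
    V27coPhiU δ D r n g' M w ↔
      ∃ x : Fin (M + 1) → Pic0.torsion K F n, Function.Injective x := by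
  unfold V27coPhiU
  rw [hw, ← P.semU hdeg R M hg' hr hD1 hD2 hD3]
  exact ⟨fun h => h.2.2, fun h => ⟨hT, hP3, h⟩⟩

/-- **(SEM-L)** for helper24's literal `V27coPhiL`. -/
theorem phiL_iff (P : V27Presented K F T) (hdeg : ∀ v : Place K F, v.deg = 1)
    (R : V27RR K F g) {D r n g' : ℕ} (M : ℕ) (hg' : 2 * g ≤ g') (hr : 2 * g ≤ r)
    (hD1 : 2 * g + 1 ≤ D) (hD2 : 2 * g * (n * g') + 2 * g ≤ D)
    (hD3 : 2 * g * (g' + r) + 2 * g ≤ D) (w : V27coC δ → K) (hw : v27coTab w = T.c)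
    (hT : V27coIsTable T.c) (hP3 : V27coP3 D T.c) :
    V27coPhiL δ D r n g' M w ↔
      ∃ x : Fin (M - 1) → Pic0.torsion K F n, Function.Surjective x := by
  unfold V27coPhiL
  rw [hw, ← P.semL hdeg R M hg' hr hD1 hD2 hD3]
  exact ⟨fun h => h.2.2, fun h => ⟨hT, hP3, h⟩⟩

end V27Presented

end Fermat.Agent.V
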