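/-
Program V (S27), half B, route M: (SEM-pt), ring level.
On any one-point presentation `P : V27Presented K F T` (helper5) with `V27pB T` Dedekind and `K`
algebraically closed, the `K`-algebra homs `V27pB T →ₐ[K] K` are in bijection with the places of
`F` other than `P.P0`, and `φ b = 0` iff `ψ b` vanishes at the place of `φ`.
Owner: helper15.  Prefix `v27sp_`.
-/
import Mathlib
import Fermat.Agent.V.Pres.Presented
import Fermat.Agent.V.Pts.Places
import Fermat.Agent.V.Pts.Inst.Points

set_option autoImplicit false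
set_option linter.style.haveILetI false
set_option linter.unusedSectionVars false

noncomputable section

namespace Fermat.Agent.V

open AlgebraicCurve Polynomial Fermat.Agent.S24

variable {K F : Type*} [Field K] [Field F] [Algebra K F] {δ : V27pShape} {T : V27pTable K δ}
  (P : V27Presented K F T)

/-- `F` as an algebra over the coordinate ring, through `ψ`. -/
@[reducible] def v27spAlg : Algebra (V27pB T) F := P.ψ.toRingHom.toAlgebra

theorem v27sp_algebraMap_apply (b : V27pB T) :
    letI := v27spAlg P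
    algebraMap (V27pB T) F b = P.ψ b := rfl

theorem v27sp_isScalarTower :
    letI := v27spAlg P
    IsScalarTower K (V27pB T) F := by
  letI := v27spAlg P
  exact IsScalarTower.of_algebraMap_eq fun c => (P.ψ.commutes c).symm

theorem v27sp_isFractionRing :
    letI := v27spAlg P
    IsFractionRing (V27pB T) F := by
  letI := v27spAlg P
  haveI : FaithfulSMul (V27pB T) F := (faithfulSMul_iff_algebraMap_injective _ _).mpr P.inj
  refine IsFractionRing.of_field (V27pB T) F fun z => ?_
  obtain ⟨a, b, hb, hab⟩ := P.hfrac z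
  refine ⟨a, b, ?_⟩
  have hb' : P.ψ b ≠ 0 := P.ψ_ne_zero hb
  show z = P.ψ a / P.ψ b
  rw [eq_div_iff hb', hab]

section Dedekind

variable [IsDedekindDomain (V27pB T)]

/-- **The place of a point.** -/
def v27spPlace (φ : V27pB T →ₐ[K] K) : Place K F :=
  letI := v27spAlg P
  haveI := v27sp_isScalarTower P
  haveI := v27sp_isFractionRing P
  v27ptPlace F v27pi_not_isField φ

theorem v27sp_place_mem (φ : V27pB T →ₐ[K] K) (b : V27pB T) :
    P.ψ b ∈ (v27spPlace P φ).toValuationSubring := by
  letI := v27spAlg P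
  haveI := v27sp_isScalarTower P
  haveI := v27sp_isFractionRing P
  exact v27pt_place_mem v27pi_not_isField φ b

theorem v27sp_ord_nonneg (φ : V27pB T →ₐ[K] K) (b : V27pB T) :
    0 ≤ (v27spPlace P φ).ord (P.ψ b) :=
  PlaceOrd.ord_nonneg_of_mem _ (v27sp_place_mem P φ b)

/-- **`ψ b` vanishes at the place of `φ` iff `φ b = 0`.** -/
theorem v27sp_ord_pos_iff (φ : V27pB T →ₐ[K] K) {b : V27pB T} (hb : b ≠ 0) :
    0 < (v27spPlace P φ).ord (P.ψ b) ↔ φ b = 0 := by
  letI := v27spAlg P
  haveI := v27sp_isScalarTower P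
  haveI := v27sp_isFractionRing P
  exact v27pt_place_ord_pos_iff v27pi_not_isField φ hb

theorem v27sp_deg (φ : V27pB T →ₐ[K] K) : (v27spPlace P φ).deg = 1 := by
  letI := v27spAlg P
  haveI := v27sp_isScalarTower P
  haveI := v27sp_isFractionRing P
  exact v27pt_place_deg v27pi_not_isField φ

/-- the pole order of `x` at `P0` is `N > 0` -/
theorem v27sp_x_not_mem : P.ψ (V27pB.x (T := T)) ∉ P.P0.toValuationSubring := by
  intro hmem
  have h0 : 0 ≤ P.P0.ord (P.ψ V27pB.x) := PlaceOrd.ord_nonneg_of_mem _ hmem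
  have hx : (V27pB.x (T := T)) ≠ 0 := by
    intro h
    have := congrFun h (0 : ZMod δ.N)
    simp [V27pB.x, V27pB.algebraMap_poly_apply] at this
  -- weight `≤ 0` fails for `x`
  have h1 : V27prLe T 0 (V27pB.x (T := T)) := (P.hord _ hx 0).mp (by simpa using h0)
  have h2 := h1 0 1 (by rw [δ.d_zero]; have := δ.hN; omega)
  simp [V27pB.x, V27pB.algebraMap_poly_apply] at h2

theorem v27spPlace_ne (φ : V27pB T →ₐ[K] K) : v27spPlace P φ ≠ P.P0 := by
  intro h
  exact v27sp_x_not_mem P (h ▸ v27sp_place_mem P φ _)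

theorem v27spPlace_injective : Function.Injective (v27spPlace P) := by
  letI := v27spAlg P
  haveI := v27sp_isScalarTower P
  haveI := v27sp_isFractionRing P
  exact v27pt_place_injective v27pi_not_isField

theorem v27sp_exists_eq [IsAlgClosed K] (v : Place K F) (hv : v ≠ P.P0) :
    ∃ φ : V27pB T →ₐ[K] K, v = v27spPlace P φ := by
  letI := v27spAlg P
  haveI := v27sp_isScalarTower P
  haveI := v27sp_isFractionRing P
  exact v27pt_exists_place_eq v27pi_not_isField v (fun b => P.hcover v hv b)

/-- **(SEM-pt), ring level**: points of the table ring ≃ places other than `P0`. -/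
def v27spEquiv [IsAlgClosed K] : (V27pB T →ₐ[K] K) ≃ {v : Place K F // v ≠ P.P0} :=
  Equiv.ofBijective (fun φ => ⟨v27spPlace P φ, v27spPlace_ne P φ⟩)
    ⟨fun φ φ' h => v27spPlace_injective P (congrArg Subtype.val h),
      fun v => by
        obtain ⟨φ, hφ⟩ := v27sp_exists_eq P v.1 v.2
        exact ⟨φ, Subtype.ext hφ.symm⟩⟩

@[simp]
theorem v27spEquiv_apply [IsAlgClosed K] (φ : V27pB T →ₐ[K] K) :
    ((v27spEquiv P φ : {v : Place K F // v ≠ P.P0}) : Place K F) = v27spPlace P φ := rfl

/-- vanishing dictionary -/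
theorem v27sp_vanish_iff (φ : V27pB T →ₐ[K] K) (b : V27pB T) :
    φ b = 0 ↔ (P.ψ b = 0 ∨ 0 < (v27spPlace P φ).ord (P.ψ b)) := by
  by_cases hb : b = 0
  · subst hb
    simp
  · rw [v27sp_ord_pos_iff P φ hb]
    constructor
    · exact fun h => Or.inr h
    · rintro (h | h)
      · exact absurd h (P.ψ_ne_zero hb)
      · exact h

/-- non-vanishing dictionary -/
theorem v27sp_unit_iff (φ : V27pB T →ₐ[K] K) (b : V27pB T) :
    φ b ≠ 0 ↔ (P.ψ b ≠ 0 ∧ (v27spPlace P φ).ord (P.ψ b) = 0) := by
  by_cases hb : b = 0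
  · subst hb
    simp
  · have h1 := v27sp_ord_pos_iff P φ hb
    have h2 := v27sp_ord_nonneg P φ b
    constructor
    · intro h
      refine ⟨P.ψ_ne_zero hb, ?_⟩
      have : ¬ 0 < (v27spPlace P φ).ord (P.ψ b) := fun hpos => h (h1.mp hpos)
      omega
    · rintro ⟨-, h0⟩ hφ
      have := h1.mpr hφ
      omega

end Dedekind

end Fermat.Agent.V
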